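import Fermat.Agent.RIB.Up.VanishMain
import Fermat.Agent.ML.Main.Ctx
import Fermat.Agent.ML.Low.Main.PerLevel

/-!
# ML / Low : port of `Fermat.Agent.RIB.Up.VanishMain` from `RIB.ECtx` to `ML.MCtx`

Only the theorems with an `ECtx` argument are restated (same names, namespace `Fermat.Agent.ML.Low`);
the auxiliary lemmas are those of the RIB file.
-/
set_option autoImplicit false
set_option linter.unusedSectionVars false

noncomputable section

open AlgebraicCurve ModularCurve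

namespace Fermat.Agent.ML.Low

open Fermat.Agent.RIB 

local notation "Qbar" => AlgebraicClosure ℚ
local notation "GQ" => (AlgebraicClosure ℚ ≃ₐ[ℚ] AlgebraicClosure ℚ)
local notation "M₂" => Matrix (Fin 2) (Fin 2)

variable {p : ℕ} [Fact p.Prime] {T : Finset ℕ} {θ : ℕ → ℤ} {rbar0 : GQ →* M₂ (ZMod p)}
  {L₀ t n : ℕ} [NeZero L₀] {qv : Fin t → Nat.Primes}

/-- **(B2, VANISH)** : same statement as `RIB.vanish` (RIB/Main/Blocks.lean). -/
theorem vanish' (EC : MCtx p T θ rbar0) (TC : MTW p T θ L₀ t n qv)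
    (h : WS L₀ p (↑(cutS T qv) : Set ℕ) θ = ⊥) :
    WS (lvl L₀ (extP qv) t) p (↑(cutS T qv) : Set ℕ) θ = ⊥ :=
  WS_lvl_eq_bot (extP qv) t (plcP qv)
    (fun i hi => ctrl_surj EC (TC.step hi) (plcP_liesOver qv hi))
    (fun i hi τ hτ => ⟨nuP p qv ⟨i, hi⟩, fun x hx =>
      rho_ord EC (TC.step hi) (plcP_liesOver qv hi) τ hτ x hx.1⟩) h

end Fermat.Agent.ML.Low
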